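/-
Row 37 (S43) (helper79).  LOCALISATION OF FINITE MODULES (no field): `R` a commutative ring, `m` an ideal, `X` a FINITE
`R`-module, `loc m X = {x | every μ ∈ m is nilpotent on x}` (`S43/Free/Loc.lean`).  Mathlib only.

* `exists_idem`, `exists_idem₂` : `e ∈ R` with `e X ⊆ loc m X` and `e = 1` on `loc m X` (the same `e` for two modules);
* `exists_loc_preimage`         : `y ∈ loc m Y`, `y = f x`  ⟹  `y = f x'` with `x' ∈ loc m X`
                                  (surjectivity, exactness in the middle, purity `loc ∩ k X = k loc`).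
-/
import Fermat.Agent.S43.Free.Loc

set_option autoImplicit false

namespace Fermat.Agent.S43.Loc

open Fermat.Agent.S43.Free (loc mem_loc mem_loc_of_span map_mem_loc)

variable {R : Type*} [CommRing R]
variable {X Y : Type*} [AddCommGroup X] [Module R X] [AddCommGroup Y] [Module R Y]

/-- a power of `r` acts as an idempotent on a finite module -/
theorem exists_pow_idem [Finite X] (r : R) :
    ∃ L : ℕ, 0 < L ∧ ∀ x : X, r ^ L • r ^ L • x = r ^ L • x := by
  classical
  -- a repetition among the maps `x ↦ r ^ k • x`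
  have hfin : Finite (X → X) := inferInstance
  obtain ⟨i, j, hij, he⟩ := Finite.exists_ne_map_eq_of_infinite
    (fun k : ℕ => (fun x : X => r ^ (k + 1) • x))
  wlog hlt : i < j generalizing i j
  · exact this j i hij.symm he.symm (lt_of_le_of_ne (not_lt.1 hlt) hij.symm)
  obtain ⟨d, rfl⟩ : ∃ d, j = i + d := ⟨j - i, by omega⟩
  have hd : 0 < d := by omega
  have h0 : ∀ x : X, r ^ (i + 1 + d) • x = r ^ (i + 1) • x := by
    intro x
    have : r ^ (i + 1) • x = r ^ (i + d + 1) • x := congrFun he x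
    rw [show i + 1 + d = i + d + 1 by ring]
    exact this.symm
  -- `r ^ (k + d) = r ^ k` for `k ≥ i + 1`
  have h1 : ∀ k, i + 1 ≤ k → ∀ x : X, r ^ (k + d) • x = r ^ k • x := by
    intro k hk x
    obtain ⟨c, rfl⟩ : ∃ c, k = c + (i + 1) := ⟨k - (i + 1), by omega⟩
    rw [show c + (i + 1) + d = c + (i + 1 + d) by ring, pow_add, mul_smul, h0, ← mul_smul, ← pow_add]
  have h2 : ∀ m k, i + 1 ≤ k → ∀ x : X, r ^ (k + m * d) • x = r ^ k • x := by
    intro m
    induction m with
    | zero => intro k _ x; simp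
    | succ m ih =>
      intro k hk x
      rw [show k + (m + 1) * d = (k + m * d) + d by ring, h1 _ (by omega), ih k hk]
  refine ⟨(i + 1) * d, Nat.mul_pos (Nat.succ_pos i) hd, fun x => ?_⟩
  rw [← mul_smul, ← pow_add]
  exact h2 (i + 1) ((i + 1) * d) (Nat.le_mul_of_pos_right _ hd) x

theorem pow_smul_eq_zero_of_idem {r : R} {L : ℕ} (hL : 0 < L)
    (h : ∀ x : X, r ^ L • r ^ L • x = r ^ L • x) {x : X} {k : ℕ} (hk : r ^ k • x = 0) :
    r ^ L • x = 0 := by
  have h1 : ∀ c : ℕ, r ^ (L * (c + 1)) • x = r ^ L • x := by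
    intro c
    induction c with
    | zero => simp
    | succ c ih =>
      rw [show L * (c + 1 + 1) = L + L * (c + 1) by ring, pow_add, mul_smul, ih, h]
  rw [← h1 k]
  obtain ⟨c, hc⟩ : ∃ c, L * (k + 1) = c + k := ⟨L * (k + 1) - k, by
    have : k + 1 ≤ L * (k + 1) := Nat.le_mul_of_pos_left _ hL
    omega⟩
  rw [hc, pow_add, mul_smul, hk, smul_zero]

/-- **The idempotent.** -/
theorem exists_idem [Finite X] (m : Ideal R) :
    ∃ e : R, (∀ x : X, e • x ∈ loc m X) ∧ ∀ x ∈ loc m X, e • x = x := by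
  classical
  have := Fintype.ofFinite X
  -- a witness for every element outside `loc`
  have hw : ∀ x : X, ∃ r ∈ m, x ∉ loc m X → ∀ k : ℕ, r ^ k • x ≠ 0 := by
    intro x
    by_cases hx : x ∈ loc m X
    · exact ⟨0, m.zero_mem, fun h => absurd hx h⟩
    · rw [mem_loc] at hx
      push Not at hx
      obtain ⟨r, hr, h⟩ := hx
      exact ⟨r, hr, fun _ => h⟩
  choose rr hrm hrr using hw
  choose L hL0 hL using fun r : R => exists_pow_idem (X := X) r
  refine ⟨∏ x : X, (1 - rr x ^ L (rr x)), ?_, ?_⟩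
  · intro y
    by_contra hz
    obtain ⟨z, hzdef⟩ : ∃ z : X, z = (∏ x : X, (1 - rr x ^ L (rr x))) • y := ⟨_, rfl⟩
    rw [← hzdef] at hz
    obtain ⟨c, hc⟩ : (1 - rr z ^ L (rr z)) ∣ ∏ x : X, (1 - rr x ^ L (rr x)) :=
      Finset.dvd_prod_of_mem _ (Finset.mem_univ z)
    apply hrr z hz (L (rr z))
    have h3 : z = c • y - rr z ^ L (rr z) • c • y := by
      refine hzdef.trans ?_
      rw [hc, mul_smul, sub_smul, one_smul]
    calc rr z ^ L (rr z) • z = rr z ^ L (rr z) • (c • y - rr z ^ L (rr z) • c • y) :=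
          congrArg (fun w => rr z ^ L (rr z) • w) h3
      _ = 0 := by rw [smul_sub, hL, sub_self]
  · intro y hy
    refine Finset.prod_induction _ (fun a : R => a • y = y) ?_ (one_smul _ _) ?_
    · intro a b ha hb
      rw [mul_smul, hb, ha]
    · intro x _
      obtain ⟨k, hk⟩ := hy (rr x) (hrm x)
      rw [sub_smul, one_smul, pow_smul_eq_zero_of_idem (hL0 _) (hL _) hk, sub_zero]

theorem mem_loc_prod {m : Ideal R} {x : X} {y : Y} :
    ((x, y) : X × Y) ∈ loc m (X × Y) ↔ x ∈ loc m X ∧ y ∈ loc m Y := by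
  constructor
  · intro h
    exact ⟨map_mem_loc (LinearMap.fst R X Y) h, map_mem_loc (LinearMap.snd R X Y) h⟩
  · rintro ⟨hx, hy⟩
    have h1 : ((x, 0) : X × Y) ∈ loc m (X × Y) := map_mem_loc (LinearMap.inl R X Y) hx
    have h2 : ((0, y) : X × Y) ∈ loc m (X × Y) := map_mem_loc (LinearMap.inr R X Y) hy
    have := (loc m (X × Y)).add_mem h1 h2
    simpa using this

/-- the same idempotent for two modules -/
theorem exists_idem₂ [Finite X] [Finite Y] (m : Ideal R) :
    ∃ e : R, (∀ x : X, e • x ∈ loc m X) ∧ (∀ x ∈ loc m X, e • x = x) ∧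
      (∀ y : Y, e • y ∈ loc m Y) ∧ ∀ y ∈ loc m Y, e • y = y := by
  obtain ⟨e, h1, h2⟩ := exists_idem (X := X × Y) m
  refine ⟨e, fun x => ?_, fun x hx => ?_, fun y => ?_, fun y hy => ?_⟩
  · exact (mem_loc_prod.1 (h1 (x, 0))).1
  · have := h2 (x, 0) (mem_loc_prod.2 ⟨hx, (loc m Y).zero_mem⟩)
    exact congrArg Prod.fst this
  · exact (mem_loc_prod.1 (h1 (0, y))).2
  · have := h2 (0, y) (mem_loc_prod.2 ⟨(loc m X).zero_mem, hy⟩)
    exact congrArg Prod.snd this

/-- **Exactness of localisation**: an element of `loc m Y` in the image of `f` is the image of an element of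
`loc m X`. -/
theorem exists_loc_preimage [Finite X] [Finite Y] (m : Ideal R) (f : X →ₗ[R] Y) {y : Y}
    (hy : y ∈ loc m Y) (x : X) (hx : f x = y) : ∃ x' ∈ loc m X, f x' = y := by
  obtain ⟨e, h1, -, -, h4⟩ := exists_idem₂ (X := X) (Y := Y) m
  exact ⟨e • x, h1 x, by rw [map_smul, hx, h4 y hy]⟩

/-- decomposition -/
theorem exists_decomp [Finite X] (m : Ideal R) :
    ∃ e : R, ∀ x : X, e • x ∈ loc m X ∧ (x ∈ loc m X → e • x = x) ∧ e • (x - e • x) = 0 := by
  obtain ⟨e, h1, h2⟩ := exists_idem (X := X) m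
  exact ⟨e, fun x => ⟨h1 x, h2 x, by rw [smul_sub, h2 _ (h1 x), sub_self]⟩⟩

end Fermat.Agent.S43.Loc
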