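/-
Row 37 (S43) (helper79).  GENERALISED EIGENSPACES OF A COMMUTING FAMILY on a finite abelian group (e.g. a `ℤ/n`-module
`W1 F n`, operators in `AddMonoid.End`).  Mathlib only.  No module instance appears in the statements.

* `gen t a`            : `{x | ∀ i, ∃ k, (t i - a i) ^ k x = 0}` (`a i : ℤ`);
* `gen_stable`         : stable under the endomorphisms commuting with the `t i`;
* `map_mem_gen`        : functoriality for equivariant additive maps;
* `exists_gen_preimage`: `y ∈ gen t' a`, `y = f x` ⟹ `y = f x'`, `x' ∈ gen t a`  (`X`, `Y` finite, `f` equivariant):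
                         surjectivity, exactness in the middle, purity;
* `exists_proj`        : a projector `e` onto `gen t a` commuting with everything that commutes with the `t i`;
* `card_gen_of_exact`  : multiplicativity of `Nat.card (gen _ _)` in short exact sequences.
-/
import Fermat.Agent.S43.Loc.Basic

set_option autoImplicit false
set_option linter.style.haveILetI false
set_option linter.deprecated false

noncomputable section

namespace Fermat.Agent.S43.Loc

open Fermat.Agent.S43.Free (loc mem_loc mem_loc_of_span map_mem_loc)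

variable {ι : Type*} {X Y Z : Type*} [AddCommGroup X] [AddCommGroup Y] [AddCommGroup Z]

theorem end_mul_apply (f g : AddMonoid.End X) (x : X) : (f * g) x = f (g x) := rfl

theorem end_add_apply (f g : AddMonoid.End X) (x : X) : (f + g) x = f x + g x := rfl

theorem end_sub_apply (f g : AddMonoid.End X) (x : X) : (f - g) x = f x - g x := rfl

theorem end_intCast_apply (a : ℤ) (x : X) : (a : AddMonoid.End X) x = a • x := rfl

/-- The generalised eigenspace of the family `t` for the eigenvalues `a`. -/
def gen (t : ι → AddMonoid.End X) (a : ι → ℤ) : AddSubgroup X where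
  carrier := {x | ∀ i, ∃ k : ℕ, ((t i - (a i : AddMonoid.End X)) ^ k) x = 0}
  zero_mem' := fun _ => ⟨0, map_zero _⟩
  add_mem' := by
    intro x y hx hy i
    obtain ⟨k, hk⟩ := hx i
    obtain ⟨k', hk'⟩ := hy i
    refine ⟨k + k', ?_⟩
    have h1 : ((t i - (a i : AddMonoid.End X)) ^ (k + k')) x = 0 := by
      rw [add_comm, pow_add, end_mul_apply, hk, map_zero]
    have h2 : ((t i - (a i : AddMonoid.End X)) ^ (k + k')) y = 0 := by
      rw [pow_add, end_mul_apply, hk', map_zero]
    rw [map_add, h1, h2, add_zero]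
  neg_mem' := by
    intro x hx i
    obtain ⟨k, hk⟩ := hx i
    exact ⟨k, by rw [map_neg, hk, neg_zero]⟩

theorem mem_gen {t : ι → AddMonoid.End X} {a : ι → ℤ} {x : X} :
    x ∈ gen t a ↔ ∀ i, ∃ k : ℕ, ((t i - (a i : AddMonoid.End X)) ^ k) x = 0 := Iff.rfl

theorem intertwine_pow {s : AddMonoid.End X} {s' : AddMonoid.End Y} (f : X →+ Y)
    (h : ∀ x, f (s x) = s' (f x)) (k : ℕ) (x : X) : f ((s ^ k) x) = (s' ^ k) (f x) := by
  induction k generalizing x with
  | zero => simp
  | succ k ih => rw [pow_succ, pow_succ, end_mul_apply, end_mul_apply, ih, h]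

theorem intertwine_sub {t : AddMonoid.End X} {t' : AddMonoid.End Y} (f : X →+ Y)
    (h : ∀ x, f (t x) = t' (f x)) (a : ℤ) (x : X) :
    f ((t - (a : AddMonoid.End X)) x) = (t' - (a : AddMonoid.End Y)) (f x) := by
  simp only [end_sub_apply, end_intCast_apply, map_sub, map_zsmul, h]

/-- functoriality -/
theorem map_mem_gen {t : ι → AddMonoid.End X} {t' : ι → AddMonoid.End Y} {a : ι → ℤ} (f : X →+ Y)
    (hf : ∀ i x, f (t i x) = t' i (f x)) {x : X} (hx : x ∈ gen t a) : f x ∈ gen t' a := by
  intro i
  obtain ⟨k, hk⟩ := hx i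
  exact ⟨k, by rw [← intertwine_pow f (intertwine_sub f (hf i) (a i)), hk, map_zero]⟩

/-- stability under commuting endomorphisms -/
theorem gen_stable {t : ι → AddMonoid.End X} {a : ι → ℤ} (g : AddMonoid.End X)
    (hg : ∀ i, Commute g (t i)) {x : X} (hx : x ∈ gen t a) : g x ∈ gen t a :=
  map_mem_gen (t := t) (t' := t) g (fun i x => DFunLike.congr_fun (hg i).eq x) hx

section Module

variable (t : ι → AddMonoid.End X) (hc : ∀ i j, Commute (t i) (t j))

/-- The action of the polynomial ring through a commuting family. -/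
def actHom : MvPolynomial ι ℤ →+* AddMonoid.End X :=
  letI : CommRing (Subring.closure (Set.range t)) := Subring.closureCommRingOfComm (by
    rintro _ ⟨i, rfl⟩ _ ⟨j, rfl⟩; exact hc i j)
  (Subring.closure (Set.range t)).subtype.comp
    (MvPolynomial.aeval fun i =>
      (⟨t i, Subring.subset_closure ⟨i, rfl⟩⟩ : Subring.closure (Set.range t))).toRingHom

theorem actHom_X (i : ι) : actHom t hc (MvPolynomial.X i) = t i := by
  unfold actHom
  simp

theorem actHom_C (c : ℤ) : actHom t hc (MvPolynomial.C c) = (c : AddMonoid.End X) := by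
  rw [show (MvPolynomial.C c : MvPolynomial ι ℤ) = (c : MvPolynomial ι ℤ) by simp, map_intCast]

/-- everything that commutes with the `t i` commutes with the action -/
theorem commute_actHom (g : AddMonoid.End X) (hg : ∀ i, Commute g (t i)) (Q : MvPolynomial ι ℤ) :
    Commute g (actHom t hc Q) := by
  induction Q using MvPolynomial.induction_on with
  | C c =>
    rw [actHom_C]
    exact (Int.cast_commute c g).symm
  | add f f' hf hf' => rw [map_add]; exact hf.add_right hf'
  | mul_X f i hf => rw [map_mul, actHom_X]; exact hf.mul_right (hg i)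

/-- The module structure. -/
@[reducible] def modZ : Module (MvPolynomial ι ℤ) X := Module.compHom X (actHom t hc)

theorem smul_def' (Q : MvPolynomial ι ℤ) (x : X) :
    letI := modZ t hc
    Q • x = actHom t hc Q x := rfl

end Module

/-- The ideal of the eigensystem. -/
def evI (a : ι → ℤ) : Ideal (MvPolynomial ι ℤ) :=
  Ideal.span (Set.range fun i => (MvPolynomial.X i - MvPolynomial.C (a i) : MvPolynomial ι ℤ))

theorem mem_loc_iff (t : ι → AddMonoid.End X) (hc : ∀ i j, Commute (t i) (t j)) (a : ι → ℤ)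
    (x : X) :
    letI := modZ t hc
    x ∈ loc (evI a) X ↔ x ∈ gen t a := by
  letI := modZ t hc
  have key : ∀ (i : ι) (k : ℕ), (MvPolynomial.X i - MvPolynomial.C (a i) : MvPolynomial ι ℤ) ^ k • x
      = ((t i - (a i : AddMonoid.End X)) ^ k) x := by
    intro i k
    rw [smul_def', map_pow, map_sub, actHom_X, actHom_C]
  constructor
  · intro h i
    obtain ⟨k, hk⟩ := h _ (Ideal.subset_span ⟨i, rfl⟩)
    exact ⟨k, by rw [← key, hk]⟩
  · intro h
    refine mem_loc_of_span ?_
    rintro _ ⟨i, rfl⟩
    obtain ⟨k, hk⟩ := h i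
    exact ⟨k, by rw [key, hk]⟩

/-- an equivariant additive map is linear -/
def linOf (t : ι → AddMonoid.End X) (hc : ∀ i j, Commute (t i) (t j)) (t' : ι → AddMonoid.End Y)
    (hc' : ∀ i j, Commute (t' i) (t' j)) (f : X →+ Y) (hf : ∀ i x, f (t i x) = t' i (f x)) :
    letI := modZ t hc
    letI := modZ t' hc'
    X →ₗ[MvPolynomial ι ℤ] Y :=
  letI := modZ t hc
  letI := modZ t' hc'
  { toFun := f
    map_add' := map_add f
    map_smul' := by
      intro Q x
      show f (actHom t hc Q x) = actHom t' hc' Q (f x)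
      induction Q using MvPolynomial.induction_on generalizing x with
      | C c => rw [actHom_C, actHom_C]; simp
      | add g g' hg hg' =>
        rw [map_add, map_add, end_add_apply, end_add_apply, map_add, hg, hg']
      | mul_X g i hg =>
        rw [map_mul, map_mul, actHom_X, actHom_X, end_mul_apply, end_mul_apply,
          hg, hf] }

/-- **Exactness of the generalised eigenspace.** -/
theorem exists_gen_preimage [Finite X] [Finite Y] (t : ι → AddMonoid.End X)
    (hc : ∀ i j, Commute (t i) (t j)) (t' : ι → AddMonoid.End Y)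
    (hc' : ∀ i j, Commute (t' i) (t' j)) (a : ι → ℤ) (f : X →+ Y)
    (hf : ∀ i x, f (t i x) = t' i (f x)) {y : Y} (hy : y ∈ gen t' a) (x : X) (hx : f x = y) :
    ∃ x' ∈ gen t a, f x' = y := by
  letI := modZ t hc
  letI := modZ t' hc'
  obtain ⟨x', h1, h2⟩ := exists_loc_preimage (evI a) (linOf t hc t' hc' f hf)
    ((mem_loc_iff t' hc' a y).2 hy) x hx
  exact ⟨x', (mem_loc_iff t hc a x').1 h1, h2⟩

/-- **The projector.** -/
theorem exists_proj [Finite X] (t : ι → AddMonoid.End X) (hc : ∀ i j, Commute (t i) (t j))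
    (a : ι → ℤ) :
    ∃ e : AddMonoid.End X, (∀ g : AddMonoid.End X, (∀ i, Commute g (t i)) → Commute g e) ∧
      (∀ x, e x ∈ gen t a) ∧ ∀ x ∈ gen t a, e x = x := by
  letI := modZ t hc
  obtain ⟨Q, h1, h2⟩ := exists_idem (X := X) (evI a)
  exact ⟨actHom t hc Q, fun g hg => commute_actHom t hc g hg Q,
    fun x => (mem_loc_iff t hc a _).1 (h1 x), fun x hx => h2 x ((mem_loc_iff t hc a x).2 hx)⟩

/-- purity: `gen ∩ k X = k gen` -/
theorem exists_gen_nsmul [Finite X] (t : ι → AddMonoid.End X) (hc : ∀ i j, Commute (t i) (t j))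
    (a : ι → ℤ) (k : ℕ) {x : X} (hx : x ∈ gen t a) (z : X) (hz : k • z = x) :
    ∃ z' ∈ gen t a, k • z' = x :=
  exists_gen_preimage t hc t hc a (nsmulAddMonoidHom k) (fun i x => (map_nsmul (t i) k x).symm) hx z hz

/-- **Multiplicativity of the cardinality** in a short exact sequence `0 → X → Y → Z → 0`. -/
theorem card_gen_of_exact [Finite X] [Finite Y] [Finite Z] (t : ι → AddMonoid.End X)
    (hc : ∀ i j, Commute (t i) (t j)) (t' : ι → AddMonoid.End Y)
    (hc' : ∀ i j, Commute (t' i) (t' j)) (t'' : ι → AddMonoid.End Z)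
    (hc'' : ∀ i j, Commute (t'' i) (t'' j)) (a : ι → ℤ)
    (f : X →+ Y) (hf : ∀ i x, f (t i x) = t' i (f x)) (g : Y →+ Z)
    (hg : ∀ i y, g (t' i y) = t'' i (g y)) (hinj : Function.Injective f)
    (hsurj : Function.Surjective g) (hex : ∀ y, g y = 0 ↔ ∃ x, f x = y) :
    Nat.card (gen t' a) = Nat.card (gen t a) * Nat.card (gen t'' a) := by
  -- the restricted maps
  let g' : gen t' a →+ gen t'' a :=
    (g.comp (gen t' a).subtype).codRestrict (gen t'' a) fun y => map_mem_gen g hg y.2
  let f' : gen t a →+ gen t' a :=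
    (f.comp (gen t a).subtype).codRestrict (gen t' a) fun x => map_mem_gen f hf x.2
  have hg' : Function.Surjective g' := by
    rintro ⟨z, hz⟩
    obtain ⟨y, hy⟩ := hsurj z
    obtain ⟨y', h1, h2⟩ := exists_gen_preimage t' hc' t'' hc'' a g hg hz y hy
    exact ⟨⟨y', h1⟩, Subtype.ext h2⟩
  have hf' : Function.Injective f' := by
    intro x x' h
    exact Subtype.ext (hinj (congrArg Subtype.val h))
  have hker : g'.ker = f'.range := by
    ext y
    constructor
    · intro hy
      have h0 : g (y : Y) = 0 := congrArg Subtype.val hy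
      obtain ⟨x, hx⟩ := (hex _).1 h0
      obtain ⟨x', h1, h2⟩ := exists_gen_preimage t hc t' hc' a f hf y.2 x hx
      exact ⟨⟨x', h1⟩, Subtype.ext h2⟩
    · rintro ⟨x, rfl⟩
      exact Subtype.ext ((hex _).2 ⟨x, rfl⟩)
  have h1 : Nat.card (gen t' a) = Nat.card g'.ker * Nat.card (gen t'' a) := by
    rw [AddSubgroup.card_eq_card_quotient_mul_card_addSubgroup g'.ker, mul_comm,
      Nat.card_congr (QuotientAddGroup.quotientKerEquivOfSurjective g' hg').toEquiv]
  rw [h1, hker, Nat.card_congr (AddMonoidHom.ofInjective hf').toEquiv.symm]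

end Fermat.Agent.S43.Loc

end
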